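/-
S13, piece T7 (final assembly, helper13): `E[p](ℚ̄)` of the Frey curve has no nonzero
Galois-fixed point.

Inputs: helper11 (`H11.no_rational_point_of_order_p_of_nodeLaw`: the 2-adic argument modulo the
node law), helper511 (`Comp2.exists_nodeModel2`, `NodeModel2.torsion_near_node`: the node law in
every residue characteristic), the Galois descent of a fixed point (after helper187), landed
S05 (`val_int_eq_one`, ...) and S54 (`exists_valuationSubring_liesOver`).
-/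
import Fermat.Agent.S13.H11.T7
import Fermat.Agent.S13.Comp2Torsion
import Fermat.Agent.S13.Skel
import Fermat.Agent.S05.AssembleFinal
import Fermat.Agent.S54.FrobExists

set_option autoImplicit false

namespace Fermat.Agent.S13.H13

open WeierstrassCurve WeierstrassCurve.Affine WeierstrassCurve.Affine.Point
open Fermat.Agent.S05.Assemble

/-! ### Galois descent of a fixed point -/

/-- An element of `ℚ̄` fixed by the whole Galois group is rational. -/
lemma exists_rat_of_fixed (z : AlgebraicClosure ℚ)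
    (hz : ∀ σ : (AlgebraicClosure ℚ) ≃ₐ[ℚ] (AlgebraicClosure ℚ), σ z = z) :
    ∃ r : ℚ, algebraMap ℚ (AlgebraicClosure ℚ) r = z := by
  have := Fermat.Agent.S54.isGalois_algebraicClosure_rat
  exact (InfiniteGalois.mem_range_algebraMap_iff_fixed (k := ℚ) (K := AlgebraicClosure ℚ) z).mpr hz

variable (P : FreyPackage)

lemma smul_some13 (σ : (AlgebraicClosure ℚ) ≃ₐ[ℚ] (AlgebraicClosure ℚ))
    {x y : AlgebraicClosure ℚ} (h : (P.freyCurve⁄(AlgebraicClosure ℚ)).Nonsingular x y) :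
    σ • (Point.some x y h : (P.freyCurve⁄(AlgebraicClosure ℚ)).Point) =
      Point.some (σ x) (σ y)
        ((Affine.baseChange_nonsingular P.freyCurve (f := σ.toAlgHom) σ.injective x y).mpr h) :=
  rfl

/-- A Galois-fixed point of the Frey curve over `ℚ̄` is the base change of a point over `ℚ`. -/
lemma exists_rat_point_of_fixed (Q : (P.freyCurve⁄(AlgebraicClosure ℚ)).Point)
    (hQ : ∀ σ : (AlgebraicClosure ℚ) ≃ₐ[ℚ] (AlgebraicClosure ℚ), σ • Q = Q) :
    ∃ Q0 : (P.freyCurve⁄ℚ).Point,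
      Point.map (W' := P.freyCurve) (Algebra.ofId ℚ (AlgebraicClosure ℚ)) Q0 = Q := by
  cases Q with
  | zero => exact ⟨0, rfl⟩
  | some x y hxy =>
    have hx : ∀ σ : (AlgebraicClosure ℚ) ≃ₐ[ℚ] (AlgebraicClosure ℚ), σ x = x := fun σ => by
      have := hQ σ
      rw [smul_some13] at this
      exact (Point.some.inj this).1
    have hy : ∀ σ : (AlgebraicClosure ℚ) ≃ₐ[ℚ] (AlgebraicClosure ℚ), σ y = y := fun σ => by
      have := hQ σ
      rw [smul_some13] at this
      exact (Point.some.inj this).2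
    obtain ⟨x0, rfl⟩ := exists_rat_of_fixed x hx
    obtain ⟨y0, rfl⟩ := exists_rat_of_fixed y hy
    have h0 : (P.freyCurve⁄ℚ).Nonsingular x0 y0 :=
      (Affine.baseChange_nonsingular P.freyCurve (f := Algebra.ofId ℚ (AlgebraicClosure ℚ))
        (Algebra.ofId ℚ (AlgebraicClosure ℚ)).injective x0 y0).mp hxy
    exact ⟨Point.some x0 y0 h0, rfl⟩

/-- **T7 bridge.** If the Frey curve has no nonzero rational point killed by `p`, then there is
no nonzero Galois-fixed point in `E[p](ℚ̄)`. -/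
theorem T7_of_no_rational_torsion
    (h : ∀ Q0 : (P.freyCurve⁄ℚ).Point, (P.p : ℤ) • Q0 = 0 → Q0 = 0) :
    ∀ x : Skel.Vp P,
      (∀ σ : (AlgebraicClosure ℚ) ≃ₐ[ℚ] (AlgebraicClosure ℚ), σ • x = x) → x = 0 := by
  intro x hx
  have hfix : ∀ σ : (AlgebraicClosure ℚ) ≃ₐ[ℚ] (AlgebraicClosure ℚ),
      σ • (x : (P.freyCurve⁄(AlgebraicClosure ℚ)).Point) = x := fun σ =>
    congrArg Subtype.val (hx σ)
  obtain ⟨Q0, hQ0⟩ := exists_rat_point_of_fixed P (x : (P.freyCurve⁄(AlgebraicClosure ℚ)).Point) hfix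
  have hx0 : (P.p : ℤ) • (x : (P.freyCurve⁄(AlgebraicClosure ℚ)).Point) = 0 :=
    (Submodule.mem_torsionBy_iff _ _).mp x.2
  have h1 : Point.map (W' := P.freyCurve) (Algebra.ofId ℚ (AlgebraicClosure ℚ))
      ((P.p : ℤ) • Q0) = 0 := by
    rw [map_zsmul, hQ0, hx0]
  have h2 : (P.p : ℤ) • Q0 = 0 :=
    Point.map_injective (W' := P.freyCurve) (Algebra.ofId ℚ (AlgebraicClosure ℚ))
      (by rw [h1]; rfl)
  have h3 := h Q0 h2
  apply Subtype.ext
  show (x : (P.freyCurve⁄(AlgebraicClosure ℚ)).Point) = 0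
  rw [← hQ0, h3]; rfl

/-! ### The node law at `2` for the Frey curve -/

section nodeLaw

variable {A : ValuationSubring (AlgebraicClosure ℚ)}

lemma frey_b₂_eq :
    (P.freyCurve⁄(AlgebraicClosure ℚ)).b₂ = ((P.b ^ P.p - P.a ^ P.p : ℤ) : AlgebraicClosure ℚ) := by
  simp only [WeierstrassCurve.b₂, frey_a₁, frey_a₂, fA, fB]
  push_cast
  ring

lemma frey_val_b₂ (hA : A.LiesOverPrime 2) :
    A.valuation (P.freyCurve⁄(AlgebraicClosure ℚ)).b₂ = 1 := by
  rw [frey_b₂_eq]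
  apply val_int_eq_one hA Nat.prime_two
  have ha : Odd (P.a ^ P.p) := (H11.frey_a_odd P).pow
  have hb : Even (P.b ^ P.p) := (H11.frey_b_even P).pow_of_ne_zero P.hp0
  have hodd : Odd (P.b ^ P.p - P.a ^ P.p) := hb.sub_odd ha
  intro hdvd
  have : Even (P.b ^ P.p - P.a ^ P.p) := even_iff_two_dvd.mpr (by exact_mod_cast hdvd)
  exact (Int.not_even_iff_odd.mpr hodd) this

lemma frey_a₄_ne_zero13 : (P.freyCurve⁄(AlgebraicClosure ℚ)).a₄ ≠ 0 := by
  rw [frey_a₄]
  exact div_ne_zero (mul_ne_zero (neg_ne_zero.mpr (fA_ne_zero P)) (fB_ne_zero P)) (by norm_num)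

lemma frey_val_a₄_lt_one (hA : A.LiesOverPrime 2) :
    A.valuation (P.freyCurve⁄(AlgebraicClosure ℚ)).a₄ < 1 := by
  have h2 : (2 : ℤ) ∣ P.b := (ZMod.intCast_zmod_eq_zero_iff_dvd P.b 2).1 P.hb2
  obtain ⟨s, hs⟩ := h2
  have hp5 := P.hp5
  obtain ⟨k, hk⟩ : ∃ k, P.p = 5 + k := ⟨P.p - 5, by omega⟩
  have hB : P.b ^ P.p = 32 * (2 ^ k * s ^ P.p) := by
    rw [hs, mul_pow]
    conv_lhs => rw [hk, pow_add]
    rw [← hk]
    ring
  have e : (P.freyCurve⁄(AlgebraicClosure ℚ)).a₄ =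
      ((-(P.a ^ P.p) * (2 * (2 ^ k * s ^ P.p)) : ℤ) : AlgebraicClosure ℚ) := by
    rw [frey_a₄]
    simp only [fA, fB]
    rw [hB]
    push_cast
    ring
  rw [e]
  exact val_int_lt_one hA ⟨-(P.a ^ P.p) * (2 ^ k * s ^ P.p), by push_cast; ring⟩

/-- The node law (helper11's `NodeLaw`) holds for the Frey curve at every valuation ring of `ℚ̄`
over `2` (helper511's component homomorphism). -/
theorem frey_nodeLaw (hA : A.LiesOverPrime 2) :
    H11.NodeLaw A.valuation (P.freyCurve⁄(AlgebraicClosure ℚ)) P.p := by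
  intro x y h hP hx
  obtain ⟨M⟩ := Comp2.exists_nodeModel2 (v := A.valuation) (P.freyCurve⁄(AlgebraicClosure ℚ))
    (frey_a₃ P) (frey_a₆ P) (frey_val_b₂ P hA) (frey_val_a₄_lt_one P hA) (frey_a₄_ne_zero13 P)
  obtain ⟨hlo, j, hj⟩ := M.torsion_near_node P.hp_odd h hP hx
  exact ⟨hlo, (j : ℤ), by rw [hj, pow_mul, zpow_natCast]⟩

end nodeLaw

/-- **T7** (frozen shape): `E[p](ℚ̄)` of the Frey curve has no nonzero Galois-fixed point. -/
theorem frey_T7 (x : Skel.Vp P)
    (hx : ∀ σ : (AlgebraicClosure ℚ) ≃ₐ[ℚ] (AlgebraicClosure ℚ), σ • x = x) : x = 0 := by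
  obtain ⟨A, hA⟩ := Fermat.Agent.S54.exists_valuationSubring_liesOver 2 Nat.prime_two
  have h2 : A.valuation (2 : AlgebraicClosure ℚ) < 1 := by
    have := (A.mem_nonunits_iff).mp hA
    simpa using this
  refine T7_of_no_rational_torsion P (fun Q0 hQ0 => ?_) x hx
  rw [natCast_zsmul] at hQ0
  exact H11.no_rational_point_of_order_p_of_nodeLaw P A.valuation h2 (frey_nodeLaw P hA) Q0 hQ0

end Fermat.Agent.S13.H13
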